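import Fermat.Agent.Arith.Chebotarev.TwistedLog

/-!
# Separating residue classes in the degree one series of a number field
-/

set_option autoImplicit false

noncomputable section

open NumberField Filter Topology
open Fermat.Agent.Arith.Density
open scoped nonZeroDivisors Classical

namespace Fermat.Agent.Arith.Chebotarev

/-- The degree one count restricted to the class `a` modulo `m`. -/
def classCount (K : Type*) [Field K] [NumberField K] (m : ℕ) (a : (ZMod m)ˣ) (n : ℕ) : ℝ :=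
  if (n : ZMod m) = (a : ZMod m) then degOneCount K n else 0

theorem _root_.Fermat.Agent.Arith.Density.HasLogPole.congr_eventually {c c' : ℕ → ℝ} {a : ℝ}
    (h : HasLogPole c a) (B : ℕ) (hB : ∀ n, B < n → c n = c' n) : HasLogPole c' a :=
  (h.add (HasLogPole.of_finite_support (c := fun n => c' n - c n) B
    fun n hn => by rw [hB n hn, sub_self])).congr (fun n => by ring) (add_zero a)

variable (K : Type*) [Field K] [NumberField K] {m : ℕ} [NeZero m]

theorem degOneCount_nonneg (n : ℕ) : 0 ≤ degOneCount K n := by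
  rw [degOneCount]
  split_ifs <;> positivity

/-- Orthogonality applied to the twisted degree one series. -/
theorem sum_degOneSum (a : (ZMod m)ˣ) {s : ℝ} (hs : s ∈ Set.Ioc (1 : ℝ) 2) :
    ∑ ψ : DirichletCharacter ℂ m, ψ ((a : ZMod m)⁻¹) * degOneSum K m ψ s =
      (((m.totient : ℝ) * ∑' n : ℕ, classCount K m a n * (n : ℝ) ^ (-s) : ℝ) : ℂ) := by
  simp only [degOneSum]
  rw [Finset.sum_congr rfl fun ψ _ => (tsum_mul_left (a := ψ ((a : ZMod m)⁻¹))).symm,
    ← Summable.tsum_finsetSum fun ψ _ => ((summable_degOneSum K m ψ hs).1.mul_left _),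
    Complex.ofReal_mul, Complex.ofReal_tsum, ← tsum_mul_left]
  refine tsum_congr fun n => ?_
  simp only [← mul_assoc, ← Finset.sum_mul,
    DirichletCharacter.sum_char_inv_mul_char_eq ℂ a.isUnit (n : ZMod m)]
  unfold classCount
  by_cases h : (a : ZMod m) = (n : ZMod m)
  · rw [if_pos h, if_pos h.symm]
    push_cast
    ring
  · rw [if_neg h, if_neg (Ne.symm h)]
    simp

/-- The number of characters trivial at `β`. -/
theorem orderOf_mul_card_trivial (β : (ZMod m)ˣ) :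
    orderOf β * (Finset.univ.filter fun ψ : DirichletCharacter ℂ m => ψ (β : ZMod m) = 1).card =
      m.totient := by
  have key : ∀ ψ : DirichletCharacter ℂ m,
      ∑ i ∈ Finset.range (orderOf β), ψ ((β : ZMod m) ^ i) =
        if ψ (β : ZMod m) = 1 then (orderOf β : ℂ) else 0 := by
    intro ψ
    simp only [map_pow]
    split_ifs with h
    · simp [h]
    · rw [geom_sum_eq h, ← map_pow, ← Units.val_pow_eq_pow_val, pow_orderOf_eq_one, Units.val_one,
        map_one, sub_self, zero_div]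
  have h1 := Finset.sum_congr rfl fun ψ (_ : ψ ∈ (Finset.univ : Finset (DirichletCharacter ℂ m))) =>
    key ψ
  rw [Finset.sum_comm, ← Finset.sum_filter, Finset.sum_const, nsmul_eq_mul] at h1
  simp only [DirichletCharacter.sum_characters_eq] at h1
  rw [Finset.sum_eq_single 0] at h1
  · rw [if_pos (pow_zero _)] at h1
    have h2 : ((m.totient : ℕ) : ℂ) =
        ((orderOf β * (Finset.univ.filter fun ψ : DirichletCharacter ℂ m =>
          ψ (β : ZMod m) = 1).card : ℕ) : ℂ) := by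
      rw [h1]; push_cast; ring
    exact (Nat.cast_injective h2).symm
  · intro i hi hi0
    rw [if_neg]
    intro h
    rw [← Units.val_pow_eq_pow_val, Units.val_eq_one] at h
    exact pow_ne_one_of_lt_orderOf hi0 (Finset.mem_range.mp hi) h
  · exact fun h => absurd (Finset.mem_range.mpr (orderOf_pos β)) h

/-- If the support of the degree one series lies in `⟨β⟩`, every character nontrivial at `β` is
nontrivial on some norm, and the class of `1` has the expected pole, then so does that of `β`. -/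
theorem hasLogPole_classCount (β : (ZMod m)ˣ)
    (hsupp : ∀ ψ : DirichletCharacter ℂ m, ψ (β : ZMod m) = 1 →
      ∃ B : ℕ, ∀ n, B < n → degOneCount K n ≠ 0 → ψ (n : ZMod m) = 1)
    (hwit : ∀ ψ : DirichletCharacter ℂ m, ψ (β : ZMod m) ≠ 1 →
      ∃ P : (Ideal (𝓞 K))⁰, (Ideal.absNorm (P : Ideal (𝓞 K))).Coprime m ∧
        ψ (Ideal.absNorm (P : Ideal (𝓞 K)) : ZMod m) ≠ 1)
    (hone : HasLogPole (classCount K m 1) (orderOf β : ℝ)⁻¹) :
    HasLogPole (classCount K m β) (orderOf β : ℝ)⁻¹ := by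
  set P1 := Finset.univ.filter fun ψ : DirichletCharacter ℂ m => ψ (β : ZMod m) = 1 with hP1
  set P2 := Finset.univ.filter fun ψ : DirichletCharacter ℂ m => ¬ψ (β : ZMod m) = 1
  have hd : (0 : ℝ) < orderOf β := by exact_mod_cast orderOf_pos β
  have hφ : (0 : ℝ) < m.totient := by exact_mod_cast Nat.totient_pos.mpr (NeZero.pos m)
  have hN1 : (orderOf β : ℝ) * P1.card = m.totient := by exact_mod_cast orderOf_mul_card_trivial β
  obtain ⟨Cz, hCz⟩ := hasLogPole_degOneCount K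
  obtain ⟨C1, hC1⟩ := hone
  -- characters trivial at `β`
  have hA : ∀ ψ ∈ P1, ∃ C : ℝ, ∀ᶠ s in 𝓝[>] (1 : ℝ),
      ‖degOneSum K m ψ s - ((-Real.log (s - 1) : ℝ) : ℂ)‖ ≤ C := by
    intro ψ hψ
    rw [hP1, Finset.mem_filter] at hψ
    obtain ⟨B, hB⟩ := hsupp ψ hψ.2
    refine ⟨∑ n ∈ Finset.range (B + 1), 2 * degOneCount K n + Cz, ?_⟩
    filter_upwards [hCz, Ioc_mem_nhdsGT one_lt_two] with s ⟨hsum, hbd⟩ hs
    set Z := ∑' n : ℕ, degOneCount K n * (n : ℝ) ^ (-s) with hZ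
    have hdiff : ‖degOneSum K m ψ s - (Z : ℂ)‖ ≤
        ∑ n ∈ Finset.range (B + 1), 2 * degOneCount K n := by
      rw [degOneSum, hZ, Complex.ofReal_tsum,
        ← (summable_degOneSum K m ψ hs).1.tsum_sub (Complex.summable_ofReal.mpr hsum)]
      rw [tsum_eq_sum (s := Finset.range (B + 1)) fun n hn => by
        by_cases h0 : degOneCount K n = 0
        · simp [h0]
        · rw [hB n (by simpa using hn) h0, one_mul, sub_self]]
      refine (norm_sum_le _ _).trans (Finset.sum_le_sum fun n _ => ?_)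
      rw [← sub_one_mul, norm_mul, Complex.norm_real, Real.norm_of_nonneg
        (mul_nonneg (degOneCount_nonneg K n) (Real.rpow_nonneg (Nat.cast_nonneg n) _))]
      refine mul_le_mul ((norm_sub_le _ _).trans ?_) (mul_le_of_le_one_right
        (degOneCount_nonneg K n) ?_) (mul_nonneg (degOneCount_nonneg K n)
          (Real.rpow_nonneg (Nat.cast_nonneg n) _)) two_pos.le
      · rw [norm_one]
        linarith [DirichletCharacter.norm_le_one ψ (n : ZMod m)]
      · rcases Nat.eq_zero_or_pos n with hn | hn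
        · simp [hn, Real.zero_rpow (by linarith [hs.1] : -s ≠ 0)]
        · exact Real.rpow_le_one_of_one_le_of_nonpos (by exact_mod_cast hn) (by linarith [hs.1])
    calc ‖degOneSum K m ψ s - ((-Real.log (s - 1) : ℝ) : ℂ)‖
        ≤ ‖degOneSum K m ψ s - (Z : ℂ)‖ + ‖(Z : ℂ) - ((-Real.log (s - 1) : ℝ) : ℂ)‖ :=
          norm_sub_le_norm_sub_add_norm_sub _ _ _
      _ ≤ _ := add_le_add hdiff (by
          rw [← Complex.ofReal_sub, Complex.norm_real, Real.norm_eq_abs, sub_neg_eq_add]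
          rwa [one_mul] at hbd)
  choose! CA hCA using hA
  have hA' : ∀ᶠ s in 𝓝[>] (1 : ℝ), ∀ ψ ∈ P1,
      ‖degOneSum K m ψ s - ((-Real.log (s - 1) : ℝ) : ℂ)‖ ≤ CA ψ :=
    (P1.eventually_all).mpr hCA
  -- characters nontrivial at `β`: bounded above
  have hB : ∀ ψ ∈ P2, ∃ C : ℝ, ∀ᶠ s in 𝓝[>] (1 : ℝ), (degOneSum K m ψ s).re ≤ C := fun ψ hψ => by
    obtain ⟨P, h1, h2⟩ := hwit ψ (Finset.mem_filter.mp hψ).2
    exact exists_re_le K m ψ h1 h2
  choose! CB hCB using hB
  have hB' : ∀ᶠ s in 𝓝[>] (1 : ℝ), ∀ ψ ∈ P2, (degOneSum K m ψ s).re ≤ CB ψ :=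
    (P2.eventually_all).mpr hCB
  -- hence bounded below
  have hlow : ∀ ψ₀ ∈ P2, ∃ C : ℝ, ∀ᶠ s in 𝓝[>] (1 : ℝ), C ≤ (degOneSum K m ψ₀ s).re := by
    intro ψ₀ hψ₀
    refine ⟨-(m.totient * C1 + ∑ ψ ∈ P1, CA ψ) - ∑ ψ ∈ P2.erase ψ₀, CB ψ, ?_⟩
    filter_upwards [hC1, hA', hB', Ioc_mem_nhdsGT one_lt_two] with s ⟨_, h1⟩ hAs hBs hs
    have horth := congrArg Complex.re (sum_degOneSum K (1 : (ZMod m)ˣ) hs)
    rw [Complex.re_sum, Complex.ofReal_re, ← Finset.sum_filter_add_sum_filter_not Finset.univ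
      (fun ψ : DirichletCharacter ℂ m => ψ (β : ZMod m) = 1), ← hP1,
      ← Finset.add_sum_erase P2 _ hψ₀] at horth
    simp only [Units.val_one, ZMod.inv_one, map_one, one_mul] at horth
    set T := ∑' n : ℕ, classCount K m 1 n * (n : ℝ) ^ (-s)
    set Lg := -Real.log (s - 1) with hLg
    have hT : -(m.totient * C1 : ℝ) ≤ m.totient * T - P1.card * Lg := by
      have h2 := (abs_le.mp h1).1
      have h3 : (m.totient : ℝ) * ((orderOf β : ℝ)⁻¹) = P1.card := by
        rw [← hN1]; field_simp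
      have h5 := mul_le_mul_of_nonneg_left h2 hφ.le
      rw [mul_add, ← mul_assoc, h3] at h5
      rw [hLg]
      linarith
    have hup : ∑ ψ ∈ P1, (degOneSum K m ψ s).re ≤ P1.card * Lg + ∑ ψ ∈ P1, CA ψ := by
      rw [← nsmul_eq_mul, ← Finset.sum_const, ← Finset.sum_add_distrib]
      refine Finset.sum_le_sum fun ψ hψ => ?_
      have := (Complex.abs_re_le_norm _).trans (hAs ψ hψ)
      rw [Complex.sub_re, Complex.ofReal_re] at this
      linarith [(abs_le.mp this).2]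
    have hup2 : ∑ ψ ∈ P2.erase ψ₀, (degOneSum K m ψ s).re ≤ ∑ ψ ∈ P2.erase ψ₀, CB ψ :=
      Finset.sum_le_sum fun ψ hψ => hBs ψ (Finset.mem_of_mem_erase hψ)
    linarith
  have hbd : ∀ ψ ∈ P2, ∃ C : ℝ, ∀ᶠ s in 𝓝[>] (1 : ℝ), ‖degOneSum K m ψ s‖ ≤ C := fun ψ hψ => by
    obtain ⟨P, h1, h2⟩ := hwit ψ (Finset.mem_filter.mp hψ).2
    exact exists_norm_le K m ψ h1 h2 (hlow ψ hψ)
  choose! CC hCC using hbd
  have hC' : ∀ᶠ s in 𝓝[>] (1 : ℝ), ∀ ψ ∈ P2, ‖degOneSum K m ψ s‖ ≤ CC ψ :=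
    (P2.eventually_all).mpr hCC
  refine ⟨(m.totient : ℝ)⁻¹ * (∑ ψ ∈ P1, CA ψ + ∑ ψ ∈ P2, CC ψ), ?_⟩
  filter_upwards [hCz, hA', hC', Ioc_mem_nhdsGT one_lt_two] with s ⟨hsum, _⟩ hAs hCs hs
  refine ⟨Summable.of_nonneg_of_le (fun n => mul_nonneg ?_ (Real.rpow_nonneg (Nat.cast_nonneg n) _))
    (fun n => mul_le_mul_of_nonneg_right ?_ (Real.rpow_nonneg (Nat.cast_nonneg n) _)) hsum, ?_⟩
  · rw [classCount]; split_ifs
    exacts [degOneCount_nonneg K n, le_rfl]
  · rw [classCount]; split_ifs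
    exacts [le_rfl, degOneCount_nonneg K n]
  set T := ∑' n : ℕ, classCount K m β n * (n : ℝ) ^ (-s)
  set Lg := -Real.log (s - 1) with hLg
  have horth := sum_degOneSum K β hs
  have hkey : ‖(((m.totient : ℝ) * T - P1.card * Lg : ℝ) : ℂ)‖ ≤
      ∑ ψ ∈ P1, CA ψ + ∑ ψ ∈ P2, CC ψ := by
    rw [Complex.ofReal_sub, ← horth, ← Finset.sum_filter_add_sum_filter_not Finset.univ
      (fun ψ : DirichletCharacter ℂ m => ψ (β : ZMod m) = 1), ← hP1]
    have hinv : ∀ ψ ∈ P1, ψ ((β : ZMod m)⁻¹) = 1 := fun ψ hψ => by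
      have h1 : ψ (β : ZMod m) = 1 := (Finset.mem_filter.mp hψ).2
      have h2 := map_mul ψ (β : ZMod m)⁻¹ (β : ZMod m)
      rw [ZMod.inv_mul_of_unit _ β.isUnit, map_one, h1, mul_one] at h2
      exact h2.symm
    rw [Finset.sum_congr rfl fun ψ hψ => by rw [hinv ψ hψ, one_mul], add_sub_right_comm,
      show ((((P1.card : ℝ) * Lg : ℝ)) : ℂ) = ∑ _ψ ∈ P1, (Lg : ℂ) by simp,
      ← Finset.sum_sub_distrib]
    refine (norm_add_le _ _).trans (add_le_add ((norm_sum_le _ _).trans (Finset.sum_le_sum hAs))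
      ((norm_sum_le _ _).trans (Finset.sum_le_sum fun ψ hψ => ?_)))
    rw [norm_mul]
    exact (mul_le_of_le_one_left (norm_nonneg _) (DirichletCharacter.norm_le_one ψ _)).trans
      (hCs ψ hψ)
  rw [Complex.norm_real, Real.norm_eq_abs] at hkey
  have heq : T + (orderOf β : ℝ)⁻¹ * Real.log (s - 1) =
      (m.totient : ℝ)⁻¹ * ((m.totient : ℝ) * T - P1.card * Lg) := by
    have hP10 : (P1.card : ℝ) ≠ 0 := (mul_ne_zero_iff.mp (hN1.trans_ne hφ.ne')).2
    rw [hLg, ← hN1]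
    field_simp
    ring
  rw [heq, abs_mul, abs_of_pos (inv_pos.mpr hφ)]
  exact mul_le_mul_of_nonneg_left hkey (inv_nonneg.mpr hφ.le)

end Fermat.Agent.Arith.Chebotarev
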