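import Fermat.Agent.Arith.Chebotarev.Crossing

/-!
# The Chebotarev density theorem
-/

set_option autoImplicit false

noncomputable section

namespace Fermat.Agent.Arith.Chebotarev

open Filter
open Fermat.Agent.Arith Fermat.Agent.Arith.Density
open scoped Topology Classical Pointwise

theorem tendsto_neg_log_sub_one :
    Tendsto (fun s : ℝ => -Real.log (s - 1)) (𝓝[>] (1 : ℝ)) atTop := by
  refine tendsto_neg_atBot_atTop.comp (Real.tendsto_log_nhdsGT_zero.comp ?_)
  refine tendsto_nhdsWithin_of_tendsto_nhds_of_eventually_within _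
    ((continuous_id.sub continuous_const).tendsto' (1 : ℝ) 0 (sub_self 1) |>.mono_left
      nhdsWithin_le_nhds) ?_
  filter_upwards [self_mem_nhdsWithin] with s hs
  exact sub_pos.mpr (show (1 : ℝ) < s from hs)

theorem _root_.Fermat.Agent.Arith.Density.HasLogPole.tendsto {c : ℕ → ℝ} {a : ℝ}
    (h : HasLogPole c a) : Tendsto (fun s : ℝ =>
      (∑' n : ℕ, c n * (n : ℝ) ^ (-s)) / (-Real.log (s - 1))) (𝓝[>] 1) (𝓝 a) := by
  obtain ⟨C, hC⟩ := h
  have h0 : Tendsto (fun s : ℝ => C / (-Real.log (s - 1))) (𝓝[>] 1) (𝓝 0) :=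
    tendsto_const_nhds.div_atTop tendsto_neg_log_sub_one
  rw [tendsto_iff_norm_sub_tendsto_zero]
  refine squeeze_zero' (Eventually.of_forall fun s => norm_nonneg _) ?_ h0
  filter_upwards [hC, tendsto_neg_log_sub_one.eventually_gt_atTop 0] with s ⟨_, h2⟩ hpos
  rw [Real.norm_eq_abs, div_sub' hpos.ne', abs_div, abs_of_pos hpos]
  refine div_le_div_of_nonneg_right ?_ hpos.le
  rwa [show -Real.log (s - 1) * a = -(a * Real.log (s - 1)) by ring, sub_neg_eq_add]

theorem hasLogPole_primes : HasLogPole (fun n => if n.Prime then 1 else 0) 1 := by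
  have : IsGalois ℚ (⊥ : IntermediateField ℚ QBar) := isGalois_bot
  have : Subsingleton Gal((⊥ : IntermediateField ℚ QBar)/ℚ) :=
    ⟨fun a b => AlgEquiv.ext fun x => by
      obtain ⟨r, hr⟩ := IntermediateField.mem_bot.mp x.2
      have hx : x = algebraMap ℚ (⊥ : IntermediateField ℚ QBar) r := by
        refine Subtype.ext ?_
        rw [← hr]
        simp
      rw [hx, AlgEquiv.commutes, AlgEquiv.commutes]⟩
  refine (hasLogPole_card_mem (⊥ : IntermediateField ℚ QBar) 1).congr (fun n => ?_) (by simp)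
  have : Nat.card {x : Gal((⊥ : IntermediateField ℚ QBar)/ℚ) //
      x⁻¹ * frobL (⊥ : IntermediateField ℚ QBar) n * x ∈ Subgroup.zpowers 1} = 1 :=
    Nat.card_eq_one_iff_unique.mpr ⟨inferInstance,
      ⟨⟨1, by rw [Subsingleton.elim (1⁻¹ * frobL (⊥ : IntermediateField ℚ QBar) n * 1) 1]
              exact Subgroup.one_mem _⟩⟩⟩
  rw [this, Nat.cast_one]

/-- In a cyclic group of order divisible by a large power of `n`, few orders miss `n`. -/
theorem card_not_dvd_orderOf {G : Type*} [CommGroup G] [Fintype G] [IsCyclic G] {n k : ℕ}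
    (hn : n ≠ 0) (h : n ^ (k + 1) ∣ Fintype.card G) :
    (Finset.univ.filter fun b : G => ¬n ∣ orderOf b).card * 2 ^ k ≤ n * Fintype.card G := by
  set N := Fintype.card G
  have hN : N ≠ 0 := Fintype.card_ne_zero
  have hsub : (Finset.univ.filter fun b : G => ¬n ∣ orderOf b) ⊆
      n.primeFactors.biUnion fun p => Finset.univ.filter fun b : G => b ^ (N / p ^ k) = 1 := by
    intro b hb
    rw [Finset.mem_filter] at hb
    have he : orderOf b ≠ 0 := (orderOf_pos b).ne'
    have hnle : ¬n.factorization ≤ (orderOf b).factorization := fun hle =>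
      hb.2 ((Nat.factorization_le_iff_dvd hn he).mp hle)
    rw [Finsupp.le_def] at hnle
    push Not at hnle
    obtain ⟨p, hp⟩ := hnle
    have hpn : p ∈ n.primeFactors := by
      rw [← Nat.support_factorization, Finsupp.mem_support_iff]
      omega
    have hpp : p.Prime := Nat.prime_of_mem_primeFactors hpn
    rw [Finset.mem_biUnion]
    refine ⟨p, hpn, Finset.mem_filter.mpr ⟨Finset.mem_univ _, orderOf_dvd_iff_pow_eq_one.mp ?_⟩⟩
    have hmul : orderOf b * p ^ k ∣ N := by
      rw [← Nat.factorization_le_iff_dvd (mul_ne_zero he (pow_ne_zero _ hpp.ne_zero)) hN,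
        Nat.factorization_mul he (pow_ne_zero _ hpp.ne_zero), hpp.factorization_pow, Finsupp.le_def]
      intro q
      have h1 := (Nat.factorization_le_iff_dvd (pow_ne_zero _ hn) hN).mpr h q
      have h2 := (Nat.factorization_le_iff_dvd he hN).mpr orderOf_dvd_card q
      rw [Nat.factorization_pow, Finsupp.smul_apply, smul_eq_mul, add_mul, one_mul] at h1
      rw [Finsupp.add_apply, Finsupp.single_apply]
      split_ifs with hq
      · subst hq
        have : k ≤ k * n.factorization p :=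
          Nat.le_mul_of_pos_right k (Nat.pos_of_ne_zero fun h0 => by omega)
        omega
      · omega
    exact Nat.dvd_div_of_mul_dvd (by rwa [mul_comm])
  refine (Nat.mul_le_mul_right _ ((Finset.card_le_card hsub).trans Finset.card_biUnion_le)).trans ?_
  rw [Finset.sum_mul]
  refine (Finset.sum_le_card_nsmul _ _ N fun p hp => ?_).trans ?_
  · have hpp := Nat.prime_of_mem_primeFactors hp
    have hpk : p ^ k ∣ N := by
      refine dvd_trans ?_ h
      exact (pow_dvd_pow_of_dvd (Nat.dvd_of_mem_primeFactors hp) k).trans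
        (pow_dvd_pow n (Nat.le_succ k))
    refine (Nat.mul_le_mul (IsCyclic.card_pow_eq_one_le (Nat.div_pos (Nat.le_of_dvd
      (Nat.pos_of_ne_zero hN) hpk) (pow_pos hpp.pos k))) (Nat.pow_le_pow_left hpp.two_le k)).trans ?_
    exact Nat.div_mul_le_self N (p ^ k)
  · rw [smul_eq_mul]
    refine Nat.mul_le_mul_right _ ?_
    calc n.primeFactors.card ≤ n.divisors.card :=
          Finset.card_le_card fun p hp => Nat.mem_divisors.mpr ⟨Nat.dvd_of_mem_primeFactors hp, hn⟩
      _ ≤ n := Nat.card_divisors_le_self n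

variable (L : IntermediateField ℚ QBar) [FiniteDimensional ℚ L] [IsGalois ℚ L]

theorem sum_conjCount [Fintype Gal(L/ℚ)] (ℓ : ℕ) :
    ∑ g : Gal(L/ℚ), conjCount L g ℓ =
      (Fintype.card Gal(L/ℚ) : ℝ) * if ℓ.Prime then 1 else 0 := by
  unfold conjCount
  by_cases hℓ : ℓ.Prime
  · simp only [if_pos hℓ, mul_one]
    rw [← Nat.cast_sum, ← Nat.card_sigma, ← Nat.card_eq_fintype_card]
    exact congrArg Nat.cast (Nat.card_congr (Equiv.sigmaFiberEquiv _))
  · simp [hℓ]

theorem conjCount_nonneg (g : Gal(L/ℚ)) (ℓ : ℕ) : 0 ≤ conjCount L g ℓ := by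
  rw [conjCount]
  split_ifs <;> positivity

theorem conjCount_le (g : Gal(L/ℚ)) (ℓ : ℕ) :
    conjCount L g ℓ ≤ (Nat.card Gal(L/ℚ) : ℝ) * if ℓ.Prime then 1 else 0 := by
  rw [conjCount]
  split_ifs
  · rw [mul_one]
    exact_mod_cast Nat.card_le_card_of_injective _ Subtype.val_injective
  · simp

theorem summable_conjCount (g : Gal(L/ℚ)) :
    ∀ᶠ s in 𝓝[>] (1 : ℝ), Summable fun ℓ : ℕ => conjCount L g ℓ * (ℓ : ℝ) ^ (-s) := by
  obtain ⟨C, hC⟩ := hasLogPole_primes.smul (Nat.card Gal(L/ℚ) : ℝ)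
  filter_upwards [hC] with s hs
  exact Summable.of_nonneg_of_le
    (fun n => mul_nonneg (conjCount_nonneg L g n) (Real.rpow_nonneg (Nat.cast_nonneg n) _))
    (fun n => mul_le_mul_of_nonneg_right (conjCount_le L g n)
      (Real.rpow_nonneg (Nat.cast_nonneg n) _)) hs.1

/-- The normalised series of primes with Frobenius conjugate to `g`. -/
def ratio (g : Gal(L/ℚ)) (s : ℝ) : ℝ :=
  (∑' ℓ : ℕ, conjCount L g ℓ * (ℓ : ℝ) ^ (-s)) / (-Real.log (s - 1))

theorem eventually_ge_ratio (g : Gal(L/ℚ)) {ε : ℝ} (hε : 0 < ε) :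
    ∀ᶠ s in 𝓝[>] (1 : ℝ), 1 - ε ≤ ratio L g s := by
  obtain ⟨B, hB⟩ := exists_bound_good L
  set n := orderOf g
  have hn : n ≠ 0 := (orderOf_pos g).ne'
  obtain ⟨k, hk⟩ := pow_unbounded_of_one_lt (2 * n / ε : ℝ) one_lt_two
  obtain ⟨m, hm, hmB, hmod⟩ := Nat.exists_prime_gt_modEq_one (k := n ^ (k + 1)) B (pow_ne_zero _ hn)
  have : Fact m.Prime := ⟨hm⟩
  have : NeZero m := ⟨hm.ne_zero⟩
  have hdvd : n ^ (k + 1) ∣ Fintype.card (ZMod m)ˣ := by
    rw [ZMod.card_units]
    exact (Nat.modEq_iff_dvd' hm.one_le).mp hmod.symm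
  set S := Finset.univ.filter fun β : (ZMod m)ˣ => n ∣ orderOf β
  set N := Fintype.card (ZMod m)ˣ
  have hNpos : (0 : ℝ) < N := by exact_mod_cast Fintype.card_pos
  have hbad := card_not_dvd_orderOf hn hdvd
  have hS : 1 - ε / 2 ≤ (S.card : ℝ) * (m.totient : ℝ)⁻¹ := by
    rw [← ZMod.card_units_eq_totient, ← div_eq_mul_inv, le_div_iff₀ hNpos]
    have h1 : S.card + (Finset.univ.filter fun β : (ZMod m)ˣ => ¬n ∣ orderOf β).card = N := by
      rw [Finset.card_filter_add_card_filter_not, Finset.card_univ]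
    have h1' : (S.card : ℝ) +
        ((Finset.univ.filter fun β : (ZMod m)ˣ => ¬n ∣ orderOf β).card : ℝ) = N := by
      exact_mod_cast h1
    have h2 : ((Finset.univ.filter fun β : (ZMod m)ˣ => ¬n ∣ orderOf β).card : ℝ) * 2 ^ k ≤
        n * N := by exact_mod_cast hbad
    rw [div_lt_iff₀ hε] at hk
    have h3 : (n : ℝ) ≤ ε / 2 * 2 ^ k := by nlinarith
    have h4 : ((Finset.univ.filter fun β : (ZMod m)ˣ => ¬n ∣ orderOf β).card : ℝ) ≤ ε / 2 * N :=
      le_of_mul_le_mul_right (h2.trans (by nlinarith)) (pow_pos two_pos k)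
    nlinarith
  have hpole := HasLogPole.finset_sum S fun β hβ => hasLogPole_conjCount_cross L g hm
    (hB m hm hmB) β (orderOf_dvd_iff_pow_eq_one.mp (Finset.mem_filter.mp hβ).2)
  rw [Finset.sum_const, nsmul_eq_mul] at hpole
  filter_upwards [hpole.tendsto.eventually (eventually_ge_nhds
    (show 1 - ε < (S.card : ℝ) * (m.totient : ℝ)⁻¹ by linarith)), summable_conjCount L g,
    hpole.choose_spec, tendsto_neg_log_sub_one.eventually_gt_atTop 0] with s h1 hsum hsum' hpos
  refine h1.trans (div_le_div_of_nonneg_right ?_ hpos.le)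
  refine hsum'.1.tsum_le_tsum (fun ℓ => mul_le_mul_of_nonneg_right ?_
    (Real.rpow_nonneg (Nat.cast_nonneg ℓ) _)) hsum
  rw [← Finset.sum_filter, Finset.sum_const, nsmul_eq_mul]
  refine mul_le_of_le_one_left (conjCount_nonneg L g ℓ) ?_
  refine Nat.cast_le_one.mpr (Finset.card_le_one.mpr fun a ha b hb => Units.ext
    ((Finset.mem_filter.mp ha).2.symm.trans (Finset.mem_filter.mp hb).2))

/-- **Chebotarev**, counting form. -/
theorem tendsto_ratio (g : Gal(L/ℚ)) : Tendsto (ratio L g) (𝓝[>] 1) (𝓝 1) := by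
  have := Fintype.ofFinite Gal(L/ℚ)
  set c := (Fintype.card Gal(L/ℚ) : ℝ)
  have hall : Tendsto (fun s => ∑ h : Gal(L/ℚ), ratio L h s) (𝓝[>] 1) (𝓝 c) := by
    have h := (hasLogPole_primes.smul c).tendsto
    rw [mul_one] at h
    refine h.congr' ?_
    filter_upwards [eventually_all.mpr fun h : Gal(L/ℚ) => summable_conjCount L h] with s hs
    unfold ratio
    rw [← Finset.sum_div, ← Summable.tsum_finsetSum fun h _ => hs h]
    congr 1
    exact tsum_congr fun n => by rw [← Finset.sum_mul, sum_conjCount]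
  rw [tendsto_order]
  refine ⟨fun b hb => ?_, fun b hb => ?_⟩
  · filter_upwards [eventually_ge_ratio L g (ε := (1 - b) / 2) (by linarith)] with s hs
    linarith
  · have hε : 0 < (b - 1) / (2 * c) := by
      have : (0 : ℝ) < c := Nat.cast_pos.mpr Fintype.card_pos
      exact div_pos (by linarith) (by linarith)
    filter_upwards [eventually_all.mpr fun h : Gal(L/ℚ) => eventually_ge_ratio L h hε,
      hall.eventually (eventually_lt_nhds (show c < c + (b - 1) / 2 by linarith))] with s hge hlt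
    rw [← Finset.add_sum_erase _ _ (Finset.mem_univ g)] at hlt
    have h1 := Finset.card_nsmul_le_sum (Finset.univ.erase g) (fun h => ratio L h s) _
      fun h _ => hge h
    rw [nsmul_eq_mul, Finset.card_erase_of_mem (Finset.mem_univ g), Finset.card_univ,
      Nat.cast_sub (show 1 ≤ Fintype.card Gal(L/ℚ) from Fintype.card_pos), Nat.cast_one] at h1
    have hc : (1 : ℝ) ≤ c := Nat.one_le_cast.mpr Fintype.card_pos
    have h2 : c * ((b - 1) / (2 * c)) = (b - 1) / 2 := by field_simp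
    nlinarith

/-- Every element of `Gal(L/ℚ)` is a Frobenius at a place over infinitely many primes. -/
theorem exists_frobenius_restrict_eq (g : GQ) (S : Finset ℕ) :
    ∃ ℓ : ℕ, ℓ.Prime ∧ ℓ ∉ S ∧ ∃ A : ValuationSubring QBar, A.LiesOverPrime ℓ ∧
      ∃ σ : GQ, A.IsFrobeniusAt σ ℓ ∧
        AlgEquiv.restrictNormalHom L σ = AlgEquiv.restrictNormalHom L g := by
  set gb := AlgEquiv.restrictNormalHom L g
  by_contra hne
  have hzero : ∀ ℓ, S.sup id < ℓ → conjCount L gb ℓ = 0 := by
    intro ℓ hℓS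
    by_contra h
    have hℓ : ℓ.Prime := by
      by_contra hp
      exact h (by simp [conjCount, hp])
    obtain ⟨⟨x, hx⟩⟩ : Nonempty {x : Gal(L/ℚ) // x⁻¹ * frobL L ℓ * x = gb} := by
      by_contra h'
      rw [not_nonempty_iff] at h'
      exact h (by simp [conjCount])
    obtain ⟨y, rfl⟩ := AlgEquiv.restrictNormalHom_surjective (K₁ := L) QBar x
    refine hne ⟨ℓ, hℓ, fun h' => ?_, y⁻¹ • (exists_liesOverPrime hℓ).choose,
      liesOverPrime_smul_iff.mpr (exists_liesOverPrime hℓ).choose_spec, y⁻¹ * frobAt ℓ * y⁻¹⁻¹,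
      isFrobeniusAt_conj (frobAt_spec hℓ), ?_⟩
    · have h2 := Finset.le_sup (f := id) h'
      simp only [id_eq] at h2
      omega
    · rw [← hx, inv_inv, map_mul, map_mul, map_inv]
      rfl
  exact one_ne_zero (tendsto_nhds_unique (tendsto_ratio L gb)
    (HasLogPole.of_finite_support (S.sup id) hzero).tendsto)

omit [FiniteDimensional ℚ L] [IsGalois ℚ L] in
/-- Chebotarev for a homomorphism factoring through a finite level. -/
theorem exists_frobenius_eq {M : Type*} [Monoid M] (ρ : GQ →* M) (L : IntermediateField ℚ QBar)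
    [FiniteDimensional ℚ L] (hL : ∀ σ : GQ, (∀ x ∈ L, σ x = x) → ρ σ = 1) (g : GQ)
    (S : Finset ℕ) :
    ∃ ℓ : ℕ, ℓ.Prime ∧ ℓ ∉ S ∧ ∃ A : ValuationSubring QBar, A.LiesOverPrime ℓ ∧
      ∃ σ : GQ, A.IsFrobeniusAt σ ℓ ∧ ρ σ = ρ g := by
  let L' : IntermediateField ℚ QBar := IntermediateField.normalClosure ℚ L QBar
  have : Normal ℚ L' := normalClosure.normal ℚ L QBar
  have : IsGalois ℚ L' := ⟨⟩
  obtain ⟨ℓ, hℓ, hℓS, A, hA, σ, hσ, heq⟩ := exists_frobenius_restrict_eq L' g S
  refine ⟨ℓ, hℓ, hℓS, A, hA, σ, hσ, ?_⟩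
  have h1 : ρ (g⁻¹ * σ) = 1 := hL _ fun x hx => by
    refine (restrictNormalHom_eq_one_iff L').mp ?_ x (L.le_normalClosure hx)
    rw [map_mul, map_inv, heq, inv_mul_cancel]
  rw [← mul_inv_cancel_left g σ, map_mul, h1, mul_one]

end Fermat.Agent.Arith.Chebotarev
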