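import Fermat.Agent.Arith.Chebotarev.TwistedZeta
import Fermat.Agent.Arith.Density.Asymp

/-!
# Degree one primes weighted by a Dirichlet character of the norm
-/

set_option autoImplicit false

noncomputable section

open NumberField Module Filter Topology UniqueFactorizationMonoid
open Fermat.Agent.ClassField Fermat.Agent.Arith.Density
open scoped nonZeroDivisors Classical

namespace Fermat.Agent.Arith.Chebotarev

variable {ι : Type*}

/-- Multisets supported on `insert a F`. -/
def supportedInsertEquiv {a : ι} {F : Finset ι} (ha : a ∉ F) :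
    ℕ × {t : Multiset ι // ∀ i ∈ t, i ∈ F} ≃ {t : Multiset ι // ∀ i ∈ t, i ∈ insert a F} where
  toFun p := ⟨Multiset.replicate p.1 a + p.2.1, fun i hi => by
    rcases Multiset.mem_add.mp hi with h | h
    · exact Finset.mem_insert.mpr (Or.inl (Multiset.eq_of_mem_replicate h))
    · exact Finset.mem_insert_of_mem (p.2.2 i h)⟩
  invFun t := ⟨Multiset.count a t.1, ⟨Multiset.filter (fun i => i ≠ a) t.1, fun i hi =>
    (Finset.mem_insert.mp (t.2 i (Multiset.mem_of_mem_filter hi))).resolve_left
      (Multiset.of_mem_filter (p := fun i => i ≠ a) hi)⟩⟩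
  left_inv := fun ⟨k, ⟨t, ht⟩⟩ => by
    have ha' : a ∉ t := fun h => ha (ht a h)
    refine Prod.ext (by simp [Multiset.count_eq_zero.mpr ha']) (Subtype.ext ?_)
    simp only [Multiset.filter_add]
    rw [Multiset.filter_eq_nil.mpr (fun i hi => by simp [Multiset.eq_of_mem_replicate hi]), zero_add]
    exact Multiset.filter_eq_self.mpr fun i hi h => ha' (h ▸ hi)
  right_inv t := Subtype.ext (Multiset.ext.mpr fun b => by
    by_cases hb : b = a
    · subst hb; simp
    · simp [Multiset.count_replicate, hb, Ne.symm hb])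

/-- Euler product over a finite set. -/
theorem hasSum_supported (w : ι → ℂ) (hw : ∀ i, ‖w i‖ < 1)
    (hsum : Summable fun t : Multiset ι => ‖(t.map w).prod‖) (F : Finset ι) :
    HasSum (fun t : {t : Multiset ι // ∀ i ∈ t, i ∈ F} => ((t : Multiset ι).map w).prod)
      (∏ i ∈ F, (1 - w i)⁻¹) := by
  induction F using Finset.induction_on with
  | empty =>
    rw [Finset.prod_empty]
    convert hasSum_single (⟨0, fun i hi => absurd hi (Multiset.notMem_zero i)⟩ :
      {t : Multiset ι // ∀ i ∈ t, i ∈ (∅ : Finset ι)})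
      (f := fun t : {t : Multiset ι // ∀ i ∈ t, i ∈ (∅ : Finset ι)} =>
        ((t : Multiset ι).map w).prod) (fun t ht => absurd (Subtype.ext
          (Multiset.eq_zero_of_forall_notMem fun i hi => Finset.notMem_empty i (t.2 i hi))) ht)
      using 1
    simp
  | @insert a F ha ih =>
    rw [Finset.prod_insert ha]
    refine (Equiv.hasSum_iff (f := fun t : {t : Multiset ι // ∀ i ∈ t, i ∈ insert a F} =>
      ((t : Multiset ι).map w).prod) (supportedInsertEquiv ha)).mp ?_
    have hF : Summable fun t : {t : Multiset ι // ∀ i ∈ t, i ∈ F} =>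
        ‖((t : Multiset ι).map w).prod‖ :=
      hsum.comp_injective (i := fun t : {t : Multiset ι // ∀ i ∈ t, i ∈ F} => (t : Multiset ι))
        Subtype.val_injective
    have hG : Summable fun k : ℕ => ‖w a ^ k‖ := summable_norm_geometric_of_norm_lt_one (hw a)
    have hs : Summable fun p : ℕ × {t : Multiset ι // ∀ i ∈ t, i ∈ F} =>
        w a ^ p.1 * ((p.2 : Multiset ι).map w).prod :=
      summable_mul_of_summable_norm (f := fun k : ℕ => w a ^ k)
        (g := fun t : {t : Multiset ι // ∀ i ∈ t, i ∈ F} => ((t : Multiset ι).map w).prod) hG hF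
    refine ((hasSum_geometric_of_norm_lt_one (hw a)).mul ih hs).congr_fun fun p => ?_
    simp [supportedInsertEquiv, Multiset.map_replicate, Multiset.prod_replicate]

variable {K : Type*} [Field K] [NumberField K] (m : ℕ) [NeZero m] (ψ : DirichletCharacter ℂ m)

/-- The twisted weight of a prime. -/
def w (s : ℝ) (P : PrimeId K) : ℂ := ψ (Ideal.absNorm P.1 : ZMod m) * (y K s P : ℂ)

theorem norm_w_le (s : ℝ) (P : PrimeId K) : ‖w m ψ s P‖ ≤ y K s P := by
  rw [w, norm_mul, Complex.norm_real, Real.norm_of_nonneg (y_nonneg s P)]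
  exact mul_le_of_le_one_left (y_nonneg s P) (DirichletCharacter.norm_le_one ψ _)

/-- Nonzero ideals as multisets of primes. -/
def factEquiv : Multiset (PrimeId K) ≃ (Ideal (𝓞 K))⁰ :=
  (multisetEquiv K).trans (Equiv.subtypeEquivRight fun _ => mem_nonZeroDivisors_iff_ne_zero.symm)

theorem idealTerm_factEquiv (s : ℝ) (t : Multiset (PrimeId K)) :
    idealTerm m ψ s (factEquiv t) = (t.map (w m ψ s)).prod := by
  show ψ (Ideal.absNorm (t.map Subtype.val).prod : ZMod m) *
    (((Ideal.absNorm (t.map Subtype.val).prod : ℝ) ^ (-s) : ℝ) : ℂ) = _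
  induction t using Multiset.induction_on with
  | empty => simp
  | cons P t ih =>
    rw [Multiset.map_cons, Multiset.prod_cons, map_mul, Nat.cast_mul, Nat.cast_mul, map_mul,
      Real.mul_rpow (Nat.cast_nonneg _) (Nat.cast_nonneg _), Complex.ofReal_mul, Multiset.map_cons,
      Multiset.prod_cons, w, y, ← ih]
    ring

theorem summable_y {s : ℝ} (hs : s ∈ Set.Ioc (1 : ℝ) 2) : Summable (y K s) :=
  ((hasSum_idealZeta K hs).summable.comp_injective
    (i := fun P : PrimeId K => (⟨P.1, mem_nonZeroDivisors_iff_ne_zero.mpr P.2.2⟩ : (Ideal (𝓞 K))⁰))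
    fun _ _ h => Subtype.ext (congrArg Subtype.val h :))

/-- The logarithm of the twisted zeta function. -/
def logSum (s : ℝ) : ℂ := ∑' P : PrimeId K, -Complex.log (1 - w m ψ s P)

theorem norm_neg_log_sub_le {s : ℝ} (hs : 1 < s) (P : PrimeId K) :
    ‖-Complex.log (1 - w m ψ s P) - w m ψ s P‖ ≤ y K s P ^ 2 := by
  have h1 := norm_w_le m ψ s P
  have h2 := y_le_half hs P
  have h3 := Complex.norm_log_one_add_sub_self_le (z := -w m ψ s P) (by rw [norm_neg]; linarith)
  rw [norm_neg, ← sub_eq_add_neg, sub_neg_eq_add] at h3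
  rw [show -Complex.log (1 - w m ψ s P) - w m ψ s P =
    -(Complex.log (1 - w m ψ s P) + w m ψ s P) by ring, norm_neg]
  refine h3.trans ?_
  have h4 : (1 - ‖w m ψ s P‖)⁻¹ ≤ 2 := by
    rw [inv_le_comm₀ (by linarith) two_pos]; linarith
  calc ‖w m ψ s P‖ ^ 2 * (1 - ‖w m ψ s P‖)⁻¹ / 2 ≤ ‖w m ψ s P‖ ^ 2 * 2 / 2 := by
        gcongr
    _ = ‖w m ψ s P‖ ^ 2 := by ring
    _ ≤ y K s P ^ 2 := pow_le_pow_left₀ (norm_nonneg _) h1 2

theorem norm_neg_log_le {s : ℝ} (hs : 1 < s) (P : PrimeId K) :
    ‖-Complex.log (1 - w m ψ s P)‖ ≤ 2 * y K s P := by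
  have h1 := norm_neg_log_sub_le m ψ hs P
  have h2 := norm_add_le (-Complex.log (1 - w m ψ s P) - w m ψ s P) (w m ψ s P)
  rw [sub_add_cancel] at h2
  nlinarith [norm_w_le m ψ s P, y_le_half hs P, y_nonneg s P]

theorem summable_log {s : ℝ} (hs : s ∈ Set.Ioc (1 : ℝ) 2) :
    Summable fun P : PrimeId K => -Complex.log (1 - w m ψ s P) :=
  Summable.of_norm_bounded ((summable_y hs).mul_left 2) (norm_neg_log_le m ψ hs.1)

/-- Euler product. -/
theorem tsum_idealTerm_eq_exp {s : ℝ} (hs : s ∈ Set.Ioc (1 : ℝ) 2) :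
    (∑' I, idealTerm (K := K) m ψ s I) = Complex.exp (logSum (K := K) m ψ s) := by
  set v : Multiset (PrimeId K) → ℂ := fun t => (t.map (w m ψ s)).prod
  have hnorm : Summable fun t => ‖v t‖ := by
    refine ((factEquiv (K := K)).summable_iff.mpr
      (summable_idealTerm (K := K) m ψ hs).norm).congr fun t => ?_
    simp only [Function.comp_apply, idealTerm_factEquiv, v]
  rw [← (factEquiv (K := K)).tsum_eq]
  simp only [idealTerm_factEquiv]
  have hlt : ∀ P : PrimeId K, ‖w m ψ s P‖ < 1 := fun P =>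
    ((norm_w_le m ψ s P).trans (y_le_half hs.1 P)).trans_lt (by norm_num)
  have h1 : Tendsto (fun F : Finset (PrimeId K) => ∏ P ∈ F, (1 - w m ψ s P)⁻¹) atTop
      (𝓝 (∑' t, v t)) := by
    have : ∀ F : Finset (PrimeId K), ∏ P ∈ F, (1 - w m ψ s P)⁻¹ =
        ∑' t, Set.indicator {t : Multiset (PrimeId K) | ∀ i ∈ t, i ∈ F} v t := fun F => by
      rw [← tsum_subtype]
      exact (hasSum_supported _ hlt hnorm F).tsum_eq.symm
    simp only [this]
    refine tendsto_tsum_of_dominated_convergence hnorm (fun t => ?_)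
      (Eventually.of_forall fun F t => norm_indicator_le_norm_self _ _)
    refine tendsto_const_nhds.congr' ?_
    filter_upwards [eventually_ge_atTop t.toFinset] with F hF
    rw [Set.indicator_of_mem]
    exact fun i hi => hF (Multiset.mem_toFinset.mpr hi)
  refine tendsto_nhds_unique h1 (((Complex.continuous_exp.tendsto _).comp
    (summable_log m ψ hs).hasSum).congr fun F => ?_)
  simp only [Function.comp_apply, Complex.exp_sum]
  refine Finset.prod_congr rfl fun P _ => ?_
  rw [Complex.exp_neg, Complex.exp_log (sub_ne_zero.mpr fun h => ?_)]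
  have := hlt P
  rw [← h, norm_one] at this
  exact lt_irrefl _ this

variable (K)

/-- The degree one series twisted by `ψ`. -/
def degOneSum (s : ℝ) : ℂ :=
  ∑' n : ℕ, ψ (n : ZMod m) * ((degOneCount K n * (n : ℝ) ^ (-s) : ℝ) : ℂ)

theorem summable_degOneSum {s : ℝ} (hs : s ∈ Set.Ioc (1 : ℝ) 2) :
    Summable (fun n : ℕ => ψ (n : ZMod m) * ((degOneCount K n * (n : ℝ) ^ (-s) : ℝ) : ℂ)) ∧
      ‖logSum (K := K) m ψ s - degOneSum K m ψ s‖ ≤ 2 * bnd K := by
  classical
  let pr : PrimeId K → Prop := fun P => (Ideal.absNorm P.1).Prime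
  have hwsum : Summable (w (K := K) m ψ s) :=
    Summable.of_norm_bounded (summable_y hs) (norm_w_le m ψ s)
  let g : PrimeId K → ℂ := {P | pr P}.indicator (w m ψ s)
  have hgsum : Summable g := hwsum.indicator _
  have hfib : ∀ n : ℕ, HasSum (fun b : {P : PrimeId K // Ideal.absNorm P.1 = n} => g b.1)
      (ψ (n : ZMod m) * ((degOneCount K n * (n : ℝ) ^ (-s) : ℝ) : ℂ)) := by
    intro n
    by_cases hn : n.Prime
    · have : Finite {I : Ideal (𝓞 K) // Ideal.absNorm I = n} :=
        (Ideal.finite_setOfPred_absNorm_eq n).to_subtype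
      have : Finite {P : PrimeId K // Ideal.absNorm P.1 = n} :=
        Finite.of_injective (β := {I : Ideal (𝓞 K) // Ideal.absNorm I = n})
          (fun b => ⟨b.1.1, b.2⟩)
          fun b b' h => Subtype.ext (Subtype.ext (congrArg Subtype.val h :))
      have := Fintype.ofFinite {P : PrimeId K // Ideal.absNorm P.1 = n}
      have hval : ∀ b : {P : PrimeId K // Ideal.absNorm P.1 = n},
          g b.1 = ψ (n : ZMod m) * (((n : ℝ) ^ (-s) : ℝ) : ℂ) := fun b => by
        have hb : Ideal.absNorm b.1.1 = n := b.2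
        have hmem : b.1 ∈ {P | pr P} := by show (Ideal.absNorm b.1.1).Prime; rw [hb]; exact hn
        simp only [g, Set.indicator_of_mem hmem, w, y, hb]
      convert hasSum_fintype (fun b : {P : PrimeId K // Ideal.absNorm P.1 = n} => g b.1) using 1
      rw [Finset.sum_congr rfl (fun b _ => hval b), Finset.sum_const, Finset.card_univ,
        nsmul_eq_mul, ← Nat.card_eq_fintype_card, degOneCount, if_pos hn]
      push_cast
      ring
    · rw [degOneCount, if_neg hn]
      simp only [zero_mul, Complex.ofReal_zero, mul_zero]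
      refine hasSum_zero.congr_fun fun b => ?_
      have hmem : b.1 ∉ {P | pr P} := fun h => hn (b.2 ▸ h)
      exact Set.indicator_of_notMem hmem _
  have h3 : HasSum (fun n : ℕ => ψ (n : ZMod m) * ((degOneCount K n * (n : ℝ) ^ (-s) : ℝ) : ℂ))
      (∑' P, g P) :=
    ((Equiv.sigmaFiberEquiv fun P : PrimeId K => Ideal.absNorm P.1).hasSum_iff.mpr
      hgsum.hasSum).sigma hfib
  refine ⟨h3.summable, ?_⟩
  rw [degOneSum, h3.tsum_eq, logSum, ← Summable.tsum_sub (summable_log m ψ hs) hgsum]
  have hb : ∀ P, ‖-Complex.log (1 - w m ψ s P) - g P‖ ≤ 2 * ((below K P : ℝ) ^ 2)⁻¹ := by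
    intro P
    have h1 := (norm_neg_log_sub_le m ψ hs.1 P).trans (sq_y_le hs.1 P)
    by_cases hP : pr P
    · rw [show g P = w m ψ s P from Set.indicator_of_mem (s := {P | pr P}) hP _]
      linarith [(by positivity : (0 : ℝ) ≤ ((below K P : ℝ) ^ 2)⁻¹)]
    · rw [show g P = 0 from Set.indicator_of_notMem (s := {P | pr P}) hP _, sub_zero]
      have h2 := norm_add_le (-Complex.log (1 - w m ψ s P) - w m ψ s P) (w m ψ s P)
      rw [sub_add_cancel] at h2
      have h5 : below K P ^ 2 ≤ Ideal.absNorm P.1 :=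
        (absNorm_eq_below_or_sq_le K P).resolve_left fun h => hP (show (Ideal.absNorm P.1).Prime from
          h ▸ below_prime K P)
      have h6 : y K s P ≤ ((below K P : ℝ) ^ 2)⁻¹ := by
        refine (y_le_inv hs.1 P).trans (inv_anti₀ ?_ (by exact_mod_cast h5))
        have := (below_prime K P).pos
        positivity
      linarith [norm_w_le m ψ s P]
  have hbs : Summable fun P : PrimeId K => ((below K P : ℝ) ^ 2)⁻¹ :=
    summable_of_sum_le (fun P => by positivity) sum_below_le
  refine (tsum_of_norm_bounded (hbs.mul_left 2).hasSum hb).trans ?_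
  rw [tsum_mul_left]
  exact mul_le_mul_of_nonneg_left (hbs.tsum_le_of_sum_le sum_below_le) two_pos.le

theorem continuousOn_logSum : ContinuousOn (logSum (K := K) m ψ) (Set.Ioc 1 2) := by
  intro s hs
  obtain ⟨a, ha1, has⟩ := exists_between hs.1
  have hmem : Set.Icc a 2 ∈ 𝓝[Set.Ioc 1 2] s := by
    rw [mem_nhdsWithin]
    exact ⟨Set.Ioi a, isOpen_Ioi, has, fun x hx => ⟨hx.1.le, hx.2.2⟩⟩
  refine ContinuousWithinAt.mono_of_mem_nhdsWithin ?_ hmem
  refine (continuousOn_tsum (u := fun P : PrimeId K => 2 * y K a P) (fun P => ?_)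
    ((summable_y ⟨ha1, has.le.trans hs.2⟩).mul_left 2) fun P t ht => ?_) s ⟨has.le, hs.2⟩
  · have hN : (Ideal.absNorm P.1 : ℝ) ≠ 0 := by linarith [two_le_absNorm P]
    refine (ContinuousOn.clog ?_ fun t ht => ?_).neg
    · refine Continuous.continuousOn (continuous_const.sub ?_)
      refine continuous_const.mul (Complex.continuous_ofReal.comp ?_)
      exact (Real.continuous_const_rpow hN).comp continuous_neg
    · refine Or.inl ?_
      have h1 := Complex.abs_re_le_norm (w m ψ t P)
      have h2 := (norm_w_le m ψ t P).trans (y_le_half (lt_of_lt_of_le ha1 ht.1) P)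
      show 0 < (1 - w m ψ t P).re
      rw [Complex.sub_re, Complex.one_re]
      linarith [le_abs_self (w m ψ t P).re]
  · refine (norm_neg_log_le m ψ (lt_of_lt_of_le ha1 ht.1) P).trans ?_
    refine mul_le_mul_of_nonneg_left ?_ two_pos.le
    exact Real.rpow_le_rpow_of_exponent_le (by linarith [two_le_absNorm P]) (by linarith [ht.1])

/-- Upper bound for the real part, given an ideal on which the twist is nontrivial. -/
theorem exists_re_le {P : (Ideal (𝓞 K))⁰} (hP : (Ideal.absNorm (P : Ideal (𝓞 K))).Coprime m)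
    (hψ : ψ (Ideal.absNorm (P : Ideal (𝓞 K)) : ZMod m) ≠ 1) :
    ∃ C : ℝ, ∀ᶠ s in 𝓝[>] (1 : ℝ), (degOneSum K m ψ s).re ≤ C := by
  obtain ⟨c, hc⟩ := exists_tendsto_idealTerm m ψ hP hψ
  refine ⟨Real.log (‖c‖ + 1) + 2 * bnd K, ?_⟩
  filter_upwards [hc.norm.eventually (eventually_le_nhds (lt_add_one ‖c‖)),
    Ioc_mem_nhdsGT one_lt_two] with s h1 hs
  rw [tsum_idealTerm_eq_exp m ψ hs, Complex.norm_exp, ← Real.le_log_iff_exp_le (by positivity)] at h1
  have h2 := (summable_degOneSum K m ψ hs).2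
  have h3 := Complex.abs_re_le_norm (logSum (K := K) m ψ s - degOneSum K m ψ s)
  rw [Complex.sub_re] at h3
  linarith [abs_le.mp (h3.trans h2)]

/-- If the real part is also bounded below, the twisted degree one series is bounded. -/
theorem exists_norm_le {P : (Ideal (𝓞 K))⁰} (hP : (Ideal.absNorm (P : Ideal (𝓞 K))).Coprime m)
    (hψ : ψ (Ideal.absNorm (P : Ideal (𝓞 K)) : ZMod m) ≠ 1)
    (hlow : ∃ C : ℝ, ∀ᶠ s in 𝓝[>] (1 : ℝ), C ≤ (degOneSum K m ψ s).re) :
    ∃ C : ℝ, ∀ᶠ s in 𝓝[>] (1 : ℝ), ‖degOneSum K m ψ s‖ ≤ C := by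
  obtain ⟨c, hc⟩ := exists_tendsto_idealTerm m ψ hP hψ
  obtain ⟨C, hC⟩ := hlow
  -- the limit is nonzero
  have hc0 : c ≠ 0 := by
    intro h0
    rw [h0] at hc
    have hpos : (0 : ℝ) < Real.exp (C - 2 * bnd K) := Real.exp_pos _
    obtain ⟨s, ⟨h1, h2⟩, hs⟩ := (((hc.norm.eventually
      (eventually_lt_nhds (a := ‖(0 : ℂ)‖) (by rw [norm_zero]; exact hpos))).and hC).and
      (Ioc_mem_nhdsGT one_lt_two)).exists
    rw [tsum_idealTerm_eq_exp m ψ hs, Complex.norm_exp, Real.exp_lt_exp] at h1
    have h3 := (Complex.abs_re_le_norm (logSum (K := K) m ψ s - degOneSum K m ψ s)).trans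
      (summable_degOneSum K m ψ hs).2
    rw [Complex.sub_re] at h3
    linarith [abs_le.mp h3]
  have hone : Tendsto (fun s => (∑' I, idealTerm (K := K) m ψ s I) / c) (𝓝[>] 1) (𝓝 1) := by
    simpa [div_self hc0] using hc.div_const c
  have hev : ∀ᶠ s in 𝓝[>] (1 : ℝ),
      Complex.exp (logSum (K := K) m ψ s) / c ∈ Metric.ball (1 : ℂ) (1 / 2) ∧
        s ∈ Set.Ioc (1 : ℝ) 2 := by
    filter_upwards [hone.eventually (Metric.ball_mem_nhds _ (by norm_num : (0 : ℝ) < 1 / 2)),
      Ioc_mem_nhdsGT one_lt_two] with s h hs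
    rw [tsum_idealTerm_eq_exp m ψ hs] at h
    exact ⟨h, hs⟩
  obtain ⟨b, hb, hbI⟩ := mem_nhdsGT_iff_exists_Ioc_subset.mp hev
  set φ : ℝ → ℂ := fun s =>
    logSum (K := K) m ψ s - Complex.log (Complex.exp (logSum (K := K) m ψ s) / c)
  have hcl : ContinuousOn (logSum (K := K) m ψ) (Set.Ioc 1 b) :=
    (continuousOn_logSum K m ψ).mono fun s hs => (hbI hs).2
  have hφc : ContinuousOn φ (Set.Ioc 1 b) := by
    refine hcl.sub (ContinuousOn.clog ((Complex.continuous_exp.comp_continuousOn hcl).div_const c)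
      fun s hs => Or.inl ?_)
    have h := (hbI hs).1
    rw [mem_ball_iff_norm] at h
    have h2 := (Complex.abs_re_le_norm _).trans h.le
    rw [Complex.sub_re, Complex.one_re, abs_le] at h2
    linarith [h2.1]
  have hφexp : ∀ s, Complex.exp (φ s) = c := fun s => by
    simp only [φ, Complex.exp_sub]
    rw [Complex.exp_log (div_ne_zero (Complex.exp_ne_zero _) hc0)]
    field_simp [Complex.exp_ne_zero]
  have hconst : ∀ s ∈ Set.Ioc 1 b, φ s = φ b := by
    intro s hs
    obtain ⟨k, hk⟩ := Complex.exp_eq_exp_iff_exists_int.mp ((hφexp s).trans (hφexp b).symm)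
    by_contra hne
    have hk0 : k ≠ 0 := fun h => hne (by rw [hk, h]; simp)
    -- intermediate value for the imaginary part
    have hbmem : b ∈ Set.Ioc 1 b := ⟨hb, le_rfl⟩
    set t : ℝ := (φ b).im + (Real.pi : ℝ) * (if 0 < k then 1 else -1)
    have hpi := Real.pi_pos
    have ht : t ∈ Set.uIcc (φ b).im (φ s).im := by
      rw [hk, Set.mem_uIcc]
      simp only [Complex.add_im, Complex.mul_im, Complex.intCast_re, Complex.intCast_im,
        Complex.mul_re, Complex.ofReal_re, Complex.ofReal_im, Complex.I_re, Complex.I_im]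
      norm_num [t]
      split_ifs with hkp
      · left
        have : (1 : ℝ) ≤ k := by exact_mod_cast hkp
        constructor <;> nlinarith
      · right
        have : (k : ℝ) ≤ -1 := by exact_mod_cast (by omega : k ≤ -1)
        constructor <;> nlinarith
    have hsub : Set.uIcc b s ⊆ Set.Ioc 1 b := fun x hx => by
      rcases Set.mem_uIcc.mp hx with h | h
      · exact ⟨lt_of_lt_of_le hb h.1, h.2.trans hs.2⟩
      · exact ⟨lt_of_lt_of_le hs.1 h.1, h.2⟩
    obtain ⟨x, hx, hxt⟩ :=
      intermediate_value_uIcc (Complex.continuous_im.comp_continuousOn (hφc.mono hsub)) ht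
    obtain ⟨k', hk'⟩ := Complex.exp_eq_exp_iff_exists_int.mp ((hφexp x).trans (hφexp b).symm)
    simp only [Function.comp_apply, hk', Complex.add_im, Complex.mul_im, Complex.intCast_re,
      Complex.intCast_im, Complex.mul_re, Complex.ofReal_re, Complex.ofReal_im, Complex.I_re,
      Complex.I_im] at hxt
    norm_num [t] at hxt
    have h2k : (2 * k' : ℤ) = if 0 < k then 1 else -1 := by
      have h3 : ((2 * k' : ℤ) : ℝ) = if 0 < k then 1 else -1 := by
        push_cast
        apply mul_left_cancel₀ hpi.ne'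
        split_ifs at hxt ⊢ <;> linarith
      exact_mod_cast h3
    split_ifs at h2k <;> omega
  refine ⟨‖φ b‖ + (Real.log 2 + Real.pi) + 2 * bnd K, ?_⟩
  filter_upwards [Ioc_mem_nhdsGT hb] with s hs
  obtain ⟨hball, hs2⟩ := hbI hs
  have h1 := (summable_degOneSum K m ψ hs2).2
  have h2 : ‖Complex.log (Complex.exp (logSum (K := K) m ψ s) / c)‖ ≤ Real.log 2 + Real.pi := by
    refine (Complex.norm_le_abs_re_add_abs_im _).trans (add_le_add ?_ ?_)
    · rw [Complex.log_re]
      rw [mem_ball_iff_norm] at hball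
      set z := Complex.exp (logSum (K := K) m ψ s) / c
      have h4 := norm_sub_norm_le z 1
      have h5 := norm_sub_norm_le (1 : ℂ) z
      rw [norm_sub_rev] at h5
      rw [norm_one] at h4 h5
      rw [abs_le]
      constructor
      · rw [neg_le, ← Real.log_inv]
        refine Real.log_le_log (inv_pos.mpr (by linarith)) ?_
        rw [inv_le_comm₀ (by linarith) two_pos]
        linarith
      · exact Real.log_le_log (by linarith) (by linarith)
    · rw [Complex.log_im]; exact Complex.abs_arg_le_pi _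
  have h6 : degOneSum K m ψ s = φ b + Complex.log (Complex.exp (logSum (K := K) m ψ s) / c) -
      (logSum (K := K) m ψ s - degOneSum K m ψ s) := by
    rw [← hconst s hs]
    simp only [φ]
    ring
  rw [h6]
  refine (norm_sub_le _ _).trans (add_le_add ((norm_add_le _ _).trans (add_le_add le_rfl h2)) h1)

end Fermat.Agent.Arith.Chebotarev
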